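import Fermat.Agent.S25.Glue.Defs

/-!
# S25, package GLUE, leaf B-ISO (helper56): gluing of morphisms of sheaves of modules

`X` an arbitrary scheme, `M`, `N : X.Modules`, `V : ι → X.Opens` an open cover.

* `resM`, `resO` : restriction of sections / functions, with the usual rules;
* `eq_of_resM_eq` : sections are determined locally;
* `hom_ext_small` : two morphisms `M ⟶ N` which agree on the opens contained in a member of the
  cover are equal;
* `glue_hom` : **gluing of morphisms**: a family of maps `Γ(M, W) → Γ(N, W)`, `W` contained in a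
  member of the cover, additive, linear and compatible with restriction, comes from a unique
  morphism `M ⟶ N`;
* `coord` : the coordinate of a section with respect to a generating section (`IsGen`);
* `exists_hom_of_gen` : generating sections `s i` of `M` and sections `s' i` of `M'` with the same
  transition functions give a unique morphism with `s i ↦ s' i`;
* `exists_iso_of_gen` : if the `s' i` generate too, it is an isomorphism;
* `stmt_BISO : Stmt_BISO`.

This file contains no unproved statement.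
-/

set_option autoImplicit false

open CategoryTheory AlgebraicGeometry TopologicalSpace Opposite

universe u

namespace Fermat.Agent.S25.Glue.H56

variable {X : Scheme.{u}}

/-- Restriction of sections of a sheaf of modules. -/
noncomputable def resM (M : X.Modules) {U V : X.Opens} (h : V ≤ U) (t : Γ(M, U)) : Γ(M, V) :=
  M.presheaf.map (homOfLE h).op t

/-- Restriction of functions. -/
noncomputable def resO (X : Scheme.{u}) {U V : X.Opens} (h : V ≤ U) (a : Γ(X, U)) : Γ(X, V) :=
  X.presheaf.map (homOfLE h).op a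

theorem resM_add (M : X.Modules) {U V : X.Opens} (h : V ≤ U) (t t' : Γ(M, U)) :
    resM M h (t + t') = resM M h t + resM M h t' := by
  unfold resM
  exact map_add _ _ _

theorem resM_smul (M : X.Modules) {U V : X.Opens} (h : V ≤ U) (r : Γ(X, U)) (t : Γ(M, U)) :
    resM M h (r • t) = resO X h r • resM M h t := by
  unfold resM resO
  exact Scheme.Modules.map_smul M (homOfLE h) r t

theorem resM_resM (M : X.Modules) {U V W : X.Opens} (h : V ≤ U) (h' : W ≤ V) (t : Γ(M, U)) :
    resM M h' (resM M h t) = resM M (h'.trans h) t := by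
  unfold resM
  rw [← ConcreteCategory.comp_apply, ← Functor.map_comp]
  rfl

theorem resM_id (M : X.Modules) {U : X.Opens} (t : Γ(M, U)) :
    resM M (le_refl U) t = t := by
  unfold resM
  have : (homOfLE (le_refl U)).op = 𝟙 (op U) := rfl
  rw [this, M.presheaf.map_id]
  rfl

theorem resO_mul (X : Scheme.{u}) {U V : X.Opens} (h : V ≤ U) (a b : Γ(X, U)) :
    resO X h (a * b) = resO X h a * resO X h b := by
  unfold resO
  exact map_mul _ _ _

theorem resO_one (X : Scheme.{u}) {U V : X.Opens} (h : V ≤ U) :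
    resO X h (1 : Γ(X, U)) = 1 := by
  unfold resO
  exact map_one _

theorem resO_resO (X : Scheme.{u}) {U V W : X.Opens} (h : V ≤ U) (h' : W ≤ V) (a : Γ(X, U)) :
    resO X h' (resO X h a) = resO X (h'.trans h) a := by
  unfold resO
  rw [← ConcreteCategory.comp_apply, ← Functor.map_comp]
  rfl

theorem resO_id (X : Scheme.{u}) {U : X.Opens} (a : Γ(X, U)) :
    resO X (le_refl U) a = a := by
  unfold resO
  have : (homOfLE (le_refl U)).op = 𝟙 (op U) := rfl
  rw [this, X.presheaf.map_id]
  rfl

theorem hom_app_resM {M N : X.Modules} (φ : M ⟶ N) {U V : X.Opens} (h : V ≤ U) (t : Γ(M, U)) :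
    φ.app V (resM M h t) = resM N h (φ.app U t) := by
  unfold resM
  have := φ.mapPresheaf.naturality (homOfLE h).op
  exact congr($this t)

/-- Sections of a sheaf of modules are determined locally. -/
theorem eq_of_resM_eq (M : X.Modules) {ι : Type*} (V : ι → X.Opens) (U : X.Opens)
    (hU : U ≤ ⨆ i, V i) (t t' : Γ(M, U))
    (h : ∀ i, resM M (inf_le_left : U ⊓ V i ≤ U) t = resM M (inf_le_left : U ⊓ V i ≤ U) t') :
    t = t' := by
  refine TopCat.Sheaf.eq_of_locally_eq' ⟨M.presheaf, M.isSheaf⟩ (fun i => U ⊓ V i) U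
    (fun i => homOfLE inf_le_left) ?_ t t' h
  intro x hx
  obtain ⟨i, hi⟩ := Opens.mem_iSup.mp (hU hx)
  exact Opens.mem_iSup.mpr ⟨i, hx, hi⟩

section Glue

variable (M N : X.Modules) {ι : Type*} (V : ι → X.Opens)

/-- The opens contained in a member of the cover. -/
abbrev SmallOpen (V : ι → X.Opens) : Type u := {W : X.Opens // ∃ i, W ≤ V i}

theorem isBasis_smallOpen (hV : ∀ x : X, ∃ i, x ∈ V i) :
    Opens.IsBasis (Set.range (fun W : SmallOpen V => (W.1 : X.Opens))) := by
  rw [Opens.isBasis_iff_nbhd]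
  intro U x hx
  obtain ⟨i, hi⟩ := hV x
  exact ⟨U ⊓ V i, ⟨⟨U ⊓ V i, i, inf_le_right⟩, rfl⟩, ⟨hx, hi⟩, inf_le_left⟩

/-- Two morphisms of sheaves of modules which agree on the opens contained in a member of an
open cover are equal. -/
theorem hom_ext_small (hV : ∀ x : X, ∃ i, x ∈ V i) (φ ψ : M ⟶ N)
    (h : ∀ (W : X.Opens), (∃ i, W ≤ V i) → ∀ t : Γ(M, W), φ.app W t = ψ.app W t) : φ = ψ := by
  ext U t
  refine eq_of_resM_eq N V U ?_ _ _ ?_
  · intro x _
    obtain ⟨i, hi⟩ := hV x
    exact Opens.mem_iSup.mpr ⟨i, hi⟩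
  · intro i
    rw [← hom_app_resM, ← hom_app_resM, h _ ⟨i, inf_le_right⟩]

/-- **Gluing of morphisms of sheaves of modules**: a compatible linear family of maps on the
sections over the opens contained in a member of an open cover comes from a unique morphism. -/
theorem glue_hom (hV : ∀ x : X, ∃ i, x ∈ V i)
    (f : ∀ W : X.Opens, (∃ i, W ≤ V i) → Γ(M, W) → Γ(N, W))
    (f_add : ∀ W h t t', f W h (t + t') = f W h t + f W h t')
    (f_smul : ∀ W h (r : Γ(X, W)) t, f W h (r • t) = r • f W h t)
    (f_res : ∀ W W' (h : ∃ i, W ≤ V i) (h' : ∃ i, W' ≤ V i) (hW : W' ≤ W) t,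
      f W' h' (resM M hW t) = resM N hW (f W h t)) :
    ∃! φ : M ⟶ N, ∀ W h t, φ.app W t = f W h t := by
  classical
  have hB := isBasis_smallOpen V hV
  let B : SmallOpen V → X.Opens := fun W => W.1
  let α : (inducedFunctor B).op ⋙ M.presheaf ⟶ (inducedFunctor B).op ⋙ N.presheaf :=
    { app := fun W => AddCommGrpCat.ofHom (AddMonoidHom.mk' (f W.unop.1 W.unop.2)
        (f_add W.unop.1 W.unop.2))
      naturality := by
        intro W W' g
        ext t
        have hle : W'.unop.1 ≤ W.unop.1 := leOfHom g.unop.hom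
        exact f_res W.unop.1 W'.unop.1 W.unop.2 W'.unop.2 hle t }
  let φ₀ : M.presheaf ⟶ N.presheaf :=
    TopCat.Sheaf.restrictHomEquivHom M.presheaf ⟨N.presheaf, N.isSheaf⟩ hB α
  have hφ₀ : ∀ (W : X.Opens) (h : ∃ i, W ≤ V i) (t : Γ(M, W)), φ₀.app (op W) t = f W h t := by
    intro W h t
    have := TopCat.Sheaf.extend_hom_app M.presheaf ⟨N.presheaf, N.isSheaf⟩ hB α ⟨W, h⟩
    exact congr($this t)
  have hnat : ∀ (U W : X.Opens) (h : W ≤ U) (t : Γ(M, U)),
      φ₀.app (op W) (resM M h t) = resM N h (φ₀.app (op U) t) := by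
    intro U W h t
    have := φ₀.naturality (homOfLE h).op
    exact congr($this t)
  have hlin : ∀ (U : X.Opens) (r : Γ(X, U)) (m : Γ(M, U)),
      (φ₀.app (op U) (r • m) : Γ(N, U)) = r • (φ₀.app (op U) m : Γ(N, U)) := by
    intro U r m
    refine eq_of_resM_eq N V U ?_ _ _ ?_
    · intro x _
      obtain ⟨i, hi⟩ := hV x
      exact Opens.mem_iSup.mpr ⟨i, hi⟩
    · intro i
      have hs : ∃ j, U ⊓ V i ≤ V j := ⟨i, inf_le_right⟩
      have e1 := hnat U (U ⊓ V i) inf_le_left (r • m)
      have e2 := hnat U (U ⊓ V i) inf_le_left m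
      have e3 := resM_smul M (inf_le_left : U ⊓ V i ≤ U) r m
      have e4 := resM_smul N (inf_le_left : U ⊓ V i ≤ U) r (φ₀.app (op U) m)
      rw [← e1, e3, hφ₀ _ hs, f_smul, e4, ← e2, hφ₀ _ hs]
  let φ : M ⟶ N := ⟨PresheafOfModules.homMk φ₀ (fun U r m => hlin U.unop r m)⟩
  have hφ : ∀ (W : X.Opens) (t : Γ(M, W)), φ.app W t = φ₀.app (op W) t := fun _ _ => rfl
  refine ⟨φ, fun W h t => (hφ W t).trans (hφ₀ W h t), ?_⟩
  intro ψ hψ
  exact hom_ext_small M N V hV ψ φ fun W h t => by rw [hψ W h t, hφ, hφ₀ W h t]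

end Glue

/-! ### Coordinates with respect to a generating section -/

section Coord

variable {M : X.Modules} {U : X.Opens} {s : Γ(M, U)}

theorem isGen_iff : IsGen M U s ↔
    ∀ (V : X.Opens) (h : V ≤ U), Function.Bijective (fun a : Γ(X, V) => a • resM M h s) :=
  Iff.rfl

/-- The coordinate of a section with respect to a generating section. -/
noncomputable def coord (hs : IsGen M U s) {W : X.Opens} (h : W ≤ U) (t : Γ(M, W)) : Γ(X, W) :=
  ((isGen_iff.1 hs W h).2 t).choose

theorem coord_smul_res (hs : IsGen M U s) {W : X.Opens} (h : W ≤ U) (t : Γ(M, W)) :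
    coord hs h t • resM M h s = t :=
  ((isGen_iff.1 hs W h).2 t).choose_spec

theorem coord_eq (hs : IsGen M U s) {W : X.Opens} (h : W ≤ U) {t : Γ(M, W)} {a : Γ(X, W)}
    (ha : a • resM M h s = t) : coord hs h t = a :=
  (isGen_iff.1 hs W h).1 ((coord_smul_res hs h t).trans ha.symm)

theorem coord_add (hs : IsGen M U s) {W : X.Opens} (h : W ≤ U) (t t' : Γ(M, W)) :
    coord hs h (t + t') = coord hs h t + coord hs h t' := by
  apply coord_eq hs
  rw [add_smul, coord_smul_res, coord_smul_res]

theorem coord_smul (hs : IsGen M U s) {W : X.Opens} (h : W ≤ U) (r : Γ(X, W)) (t : Γ(M, W)) :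
    coord hs h (r • t) = r * coord hs h t := by
  apply coord_eq hs
  rw [mul_smul, coord_smul_res]

theorem coord_res (hs : IsGen M U s) {W W' : X.Opens} (h : W ≤ U) (h' : W' ≤ W) (t : Γ(M, W)) :
    coord hs (h'.trans h) (resM M h' t) = resO X h' (coord hs h t) := by
  apply coord_eq hs
  rw [← resM_resM M h h', ← resM_smul, coord_smul_res]

theorem coord_self (hs : IsGen M U s) : coord hs (le_refl U) s = 1 := by
  apply coord_eq hs
  rw [one_smul, resM_id]

/-- A unit multiple of a generating section is a generating section. -/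
theorem isGen_unit_smul (hs : IsGen M U s) {c : Γ(X, U)} (hc : IsUnit c) :
    IsGen M U (c • s) := by
  rw [isGen_iff]
  intro W h
  obtain ⟨d, hd⟩ := hc.exists_right_inv
  have hd' : resO X h c * resO X h d = 1 := by rw [← resO_mul, hd, resO_one]
  have hd'' : resO X h d * resO X h c = 1 := by rw [mul_comm, hd']
  have e : (fun a : Γ(X, W) => a • resM M h (c • s)) =
      (fun a : Γ(X, W) => a • resM M h s) ∘ (fun a : Γ(X, W) => a * resO X h c) := by
    funext a
    simp only [Function.comp_apply, resM_smul, mul_smul]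
  rw [e]
  refine (isGen_iff.1 hs W h).comp ⟨fun a b hab => ?_, fun b => ⟨b * resO X h d, ?_⟩⟩
  · have := congrArg (· * resO X h d) hab
    simpa only [mul_assoc, hd', mul_one] using this
  · simp only [mul_assoc, hd'', mul_one]

end Coord

/-! ### B-ISO: sheaves with the same cocycle are isomorphic -/

section Iso

variable (M M' : X.Modules) {ι : Type*} (V : ι → X.Opens)

/-- The local formula does not depend on the chart. -/
theorem coord_indep (s : ∀ i, Γ(M, V i)) (hs : ∀ i, IsGen M (V i) (s i))
    (s' : ∀ i, Γ(M', V i))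
    (hcomp : ∀ i j (u : Γ(X, V i ⊓ V j)),
      resM M inf_le_right (s j) = u • resM M inf_le_left (s i) →
      resM M' inf_le_right (s' j) = u • resM M' inf_le_left (s' i))
    (i j : ι) (W : X.Opens) (hi : W ≤ V i) (hj : W ≤ V j) (t : Γ(M, W)) :
    coord (hs i) hi t • resM M' hi (s' i) = coord (hs j) hj t • resM M' hj (s' j) := by
  have hW : W ≤ V i ⊓ V j := le_inf hi hj
  -- the transition function
  set u : Γ(X, V i ⊓ V j) := coord (hs i) inf_le_left (resM M inf_le_right (s j)) with hu
  have hu1 : resM M inf_le_right (s j) = u • resM M inf_le_left (s i) :=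
    (coord_smul_res (hs i) inf_le_left _).symm
  have hu2 := hcomp i j u hu1
  have e1 : resM M hj (s j) = resO X hW u • resM M hi (s i) := by
    rw [← resM_resM M (inf_le_right : V i ⊓ V j ≤ V j) hW, hu1, resM_smul, resM_resM]
  have e2 : resM M' hj (s' j) = resO X hW u • resM M' hi (s' i) := by
    rw [← resM_resM M' (inf_le_right : V i ⊓ V j ≤ V j) hW, hu2, resM_smul, resM_resM]
  have e3 : coord (hs i) hi t = coord (hs j) hj t * resO X hW u := by
    apply coord_eq (hs i)
    rw [mul_smul, ← e1, coord_smul_res (hs j)]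
  rw [e3, e2, mul_smul]

/-- **B-ISO, morphism form**: generating sections `s i` of `M` on a cover and sections `s' i` of
`M'` with the same transition functions give a unique morphism `M ⟶ M'` sending `s i` to
`s' i`. -/
theorem exists_hom_of_gen (hV : ∀ x : X, ∃ i, x ∈ V i)
    (s : ∀ i, Γ(M, V i)) (hs : ∀ i, IsGen M (V i) (s i))
    (s' : ∀ i, Γ(M', V i))
    (hcomp : ∀ i j (u : Γ(X, V i ⊓ V j)),
      resM M inf_le_right (s j) = u • resM M inf_le_left (s i) →
      resM M' inf_le_right (s' j) = u • resM M' inf_le_left (s' i)) :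
    ∃! φ : M ⟶ M', ∀ (i : ι) (W : X.Opens) (h : W ≤ V i) (t : Γ(M, W)),
      φ.app W t = coord (hs i) h t • resM M' h (s' i) := by
  classical
  have key := coord_indep M M' V s hs s' hcomp
  obtain ⟨φ, hφ, huniq⟩ := glue_hom M M' V hV
    (fun W h t => coord (hs h.choose) h.choose_spec t • resM M' h.choose_spec (s' h.choose))
    (fun W h t t' => by
      rw [coord_add, add_smul])
    (fun W h r t => by
      rw [coord_smul, mul_smul])
    (fun W W' h h' hW t => by
      rw [key h'.choose h.choose W' h'.choose_spec (hW.trans h.choose_spec),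
        coord_res (hs h.choose) h.choose_spec hW, resM_smul, resM_resM])
  refine ⟨φ, fun i W h t => ?_, fun ψ hψ => huniq ψ fun W h t => ?_⟩
  · rw [hφ W ⟨i, h⟩ t]
    exact key _ _ W _ h t
  · exact hψ h.choose W h.choose_spec t

/-- The morphism of `exists_hom_of_gen` sends `s i` to `s' i`. -/
theorem exists_hom_of_gen_apply (hV : ∀ x : X, ∃ i, x ∈ V i)
    (s : ∀ i, Γ(M, V i)) (hs : ∀ i, IsGen M (V i) (s i))
    (s' : ∀ i, Γ(M', V i))
    (hcomp : ∀ i j (u : Γ(X, V i ⊓ V j)),
      resM M inf_le_right (s j) = u • resM M inf_le_left (s i) →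
      resM M' inf_le_right (s' j) = u • resM M' inf_le_left (s' i)) :
    ∃ φ : M ⟶ M', ∀ i, φ.app (V i) (s i) = s' i := by
  obtain ⟨φ, hφ, -⟩ := exists_hom_of_gen M M' V hV s hs s' hcomp
  refine ⟨φ, fun i => ?_⟩
  rw [hφ i (V i) (le_refl _) (s i), coord_self, one_smul, resM_id]

/-- **B-ISO**: two sheaves of modules with generating sections on the same open cover and the
same transition functions are isomorphic, by an isomorphism matching the generating sections. -/
theorem exists_iso_of_gen (hV : ∀ x : X, ∃ i, x ∈ V i)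
    (s : ∀ i, Γ(M, V i)) (hs : ∀ i, IsGen M (V i) (s i))
    (s' : ∀ i, Γ(M', V i)) (hs' : ∀ i, IsGen M' (V i) (s' i))
    (hcomp : ∀ i j (u : Γ(X, V i ⊓ V j)),
      resM M inf_le_right (s j) = u • resM M inf_le_left (s i) →
      resM M' inf_le_right (s' j) = u • resM M' inf_le_left (s' i)) :
    ∃ φ : M ≅ M', ∀ i, φ.hom.app (V i) (s i) = s' i := by
  have hcomp' : ∀ i j (u : Γ(X, V i ⊓ V j)),
      resM M' inf_le_right (s' j) = u • resM M' inf_le_left (s' i) →
      resM M inf_le_right (s j) = u • resM M inf_le_left (s i) := by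
    intro i j u hu
    have h1 := (coord_smul_res (hs i) inf_le_left (resM M inf_le_right (s j))).symm
    have h2 := hcomp i j _ h1
    have h3 : coord (hs i) inf_le_left (resM M inf_le_right (s j)) = u :=
      (isGen_iff.1 (hs' i) _ inf_le_left).1 (h2.symm.trans hu)
    rw [h3] at h1
    exact h1
  obtain ⟨φ, hφ, -⟩ := exists_hom_of_gen M M' V hV s hs s' hcomp
  obtain ⟨ψ, hψ, -⟩ := exists_hom_of_gen M' M V hV s' hs' s hcomp'
  have h1 : φ ≫ ψ = 𝟙 M := by
    apply hom_ext_small M M V hV
    rintro W ⟨i, hi⟩ t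
    rw [Scheme.Modules.Hom.comp_app, Scheme.Modules.Hom.id_app]
    show ψ.app W (φ.app W t) = t
    rw [hφ i W hi t, Scheme.Modules.Hom.app_smul, hψ i W hi,
      coord_eq (hs' i) hi (one_smul _ _), one_smul, coord_smul_res (hs i)]
  have h2 : ψ ≫ φ = 𝟙 M' := by
    apply hom_ext_small M' M' V hV
    rintro W ⟨i, hi⟩ t
    rw [Scheme.Modules.Hom.comp_app, Scheme.Modules.Hom.id_app]
    show φ.app W (ψ.app W t) = t
    rw [hψ i W hi t, Scheme.Modules.Hom.app_smul, hφ i W hi,
      coord_eq (hs i) hi (one_smul _ _), one_smul, coord_smul_res (hs' i)]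
  refine ⟨⟨φ, ψ, h1, h2⟩, fun i => ?_⟩
  show φ.app (V i) (s i) = s' i
  rw [hφ i (V i) (le_refl _) (s i), coord_self, one_smul, resM_id]

end Iso

/-- **B-ISO** in the form of the interface. -/
theorem stmt_BISO : Stmt_BISO.{u} := by
  intro X M M' ι U hU s s' hs hs' u hu hu'
  have hcomp : ∀ i j (v : Γ(X, U i ⊓ U j)),
      resM M inf_le_right (s j) = v • resM M inf_le_left (s i) →
      resM M' inf_le_right (s' j) = v • resM M' inf_le_left (s' i) := by
    intro i j v hv
    have h1 : resM M inf_le_right (s j) = u i j • resM M inf_le_left (s i) := hu i j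
    have h2 : v = u i j := (isGen_iff.1 (hs i) _ inf_le_left).1 (hv.symm.trans h1)
    rw [h2]
    exact hu' i j
  obtain ⟨φ, -⟩ := exists_iso_of_gen M M' U hU s hs s' hs' hcomp
  exact ⟨φ⟩

end Fermat.Agent.S25.Glue.H56
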