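import Fermat.Agent.S25.Glue.H56_Iso

/-!
# S25, package GLUE, leaf B-MK (helper56): the sheaf of modules of a unit cocycle

`X` an arbitrary scheme, `U : ι → X.Opens` a family of opens, `u i j ∈ Γ(X, U i ⊓ U j)` a cocycle.

* `Sec U u W` : the sections over `W`: families `a i ∈ Γ(X, W ⊓ U i)` with
  `a i = a j * u i j` on `W ⊓ U i ⊓ U j` (the coordinates of a section in the charts);
* `mkPresheaf`, `mkPresheaf_isSheaf`, `mkSheaf U u : X.Modules`;
* `gen hu i` : the generating section on `U i` (coordinates `u j i`), `isGen_gen`,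
  `isCocycleOf_gen`;
* `stmt_BMK : Stmt_BMK`.

This file contains no unproved statement.
-/

set_option autoImplicit false

open CategoryTheory AlgebraicGeometry TopologicalSpace Opposite

universe u

namespace Fermat.Agent.S25.Glue.H56

variable {X : Scheme.{u}} {ι : Type u} (U : ι → X.Opens) (u : ∀ i j, Γ(X, U i ⊓ U j))

theorem resO_add (X : Scheme.{u}) {U V : X.Opens} (h : V ≤ U) (a b : Γ(X, U)) :
    resO X h (a + b) = resO X h a + resO X h b := by
  unfold resO
  exact map_add _ _ _

theorem resO_zero (X : Scheme.{u}) {U V : X.Opens} (h : V ≤ U) :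
    resO X h (0 : Γ(X, U)) = 0 := by
  unfold resO
  exact map_zero _

theorem resO_neg (X : Scheme.{u}) {U V : X.Opens} (h : V ≤ U) (a : Γ(X, U)) :
    resO X h (-a) = - resO X h a := by
  unfold resO
  exact map_neg _ _

/-- Functions are determined locally. -/
theorem eq_of_resO_eq (X : Scheme.{u}) {κ : Type*} (V : κ → X.Opens) (W : X.Opens)
    (hV : ∀ k, V k ≤ W) (hW : W ≤ ⨆ k, V k) (a b : Γ(X, W))
    (h : ∀ k, resO X (hV k) a = resO X (hV k) b) : a = b :=
  TopCat.Sheaf.eq_of_locally_eq' X.sheaf V W (fun k => homOfLE (hV k)) hW a b h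

/-- The condition on the coordinates of a section of the sheaf defined by a cocycle. -/
def IsSec (W : X.Opens) (a : ∀ i, Γ(X, W ⊓ U i)) : Prop :=
  ∀ i j, resO X (inf_le_left : W ⊓ U i ⊓ U j ≤ W ⊓ U i) (a i) =
    resO X (le_inf (inf_le_left.trans inf_le_left) inf_le_right : W ⊓ U i ⊓ U j ≤ W ⊓ U j) (a j) *
    resO X (le_inf (inf_le_left.trans inf_le_right) inf_le_right : W ⊓ U i ⊓ U j ≤ U i ⊓ U j)
      (u i j)

/-- The sections over `W` of the sheaf defined by a cocycle. -/
def Sec (W : X.Opens) : AddSubgroup (∀ i, Γ(X, W ⊓ U i)) where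
  carrier := {a | IsSec U u W a}
  add_mem' := by
    intro a b ha hb i j
    have h1 := ha i j
    have h2 := hb i j
    simp only [Pi.add_apply, resO_add, h1, h2, add_mul]
  zero_mem' := by
    intro i j
    simp only [Pi.zero_apply, resO_zero, zero_mul]
  neg_mem' := by
    intro a ha i j
    have h1 := ha i j
    simp only [Pi.neg_apply, resO_neg, h1, neg_mul]

theorem mem_sec {W : X.Opens} {a : ∀ i, Γ(X, W ⊓ U i)} : a ∈ Sec U u W ↔ IsSec U u W a := Iff.rfl

/-- scalar multiplication on coordinates -/
noncomputable def secSmul (W : X.Opens) (r : Γ(X, W)) (a : Sec U u W) : Sec U u W :=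
  ⟨fun i => resO X inf_le_left r * a.1 i, by
    intro i j
    have h1 := a.2 i j
    simp only [resO_mul, resO_resO, h1, mul_assoc]⟩

noncomputable instance (W : X.Opens) : SMul Γ(X, W) (Sec U u W) := ⟨secSmul U u W⟩

theorem smul_val (W : X.Opens) (r : Γ(X, W)) (a : Sec U u W) (i : ι) :
    (r • a).1 i = resO X inf_le_left r * a.1 i := rfl

noncomputable instance (W : X.Opens) : Module Γ(X, W) (Sec U u W) where
  one_smul a := by
    apply Subtype.ext
    funext i
    rw [smul_val, resO_one, one_mul]
  mul_smul r r' a := by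
    apply Subtype.ext
    funext i
    rw [smul_val, smul_val, smul_val, resO_mul, mul_assoc]
  smul_zero r := by
    apply Subtype.ext
    funext i
    rw [smul_val]
    simp
  smul_add r a b := by
    apply Subtype.ext
    funext i
    rw [smul_val]
    simp only [AddSubgroup.coe_add, Pi.add_apply, mul_add]
    rfl
  add_smul r r' a := by
    apply Subtype.ext
    funext i
    rw [smul_val]
    simp only [AddSubgroup.coe_add, Pi.add_apply, resO_add, add_mul]
    rfl
  zero_smul a := by
    apply Subtype.ext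
    funext i
    rw [smul_val, resO_zero, zero_mul]
    rfl

/-- restriction of sections -/
noncomputable def secRes {W W' : X.Opens} (h : W' ≤ W) (a : Sec U u W) : Sec U u W' :=
  ⟨fun i => resO X (inf_le_inf_right (U i) h) (a.1 i), by
    intro i j
    have h1 := congrArg (resO X (inf_le_inf_right (U j) (inf_le_inf_right (U i) h))) (a.2 i j)
    simp only [resO_mul, resO_resO] at h1 ⊢
    exact h1⟩

theorem secRes_val {W W' : X.Opens} (h : W' ≤ W) (a : Sec U u W) (i : ι) :
    (secRes U u h a).1 i = resO X (inf_le_inf_right (U i) h) (a.1 i) := rfl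

theorem secRes_add {W W' : X.Opens} (h : W' ≤ W) (a b : Sec U u W) :
    secRes U u h (a + b) = secRes U u h a + secRes U u h b := by
  apply Subtype.ext
  funext i
  simp only [secRes_val, AddSubgroup.coe_add, Pi.add_apply, resO_add]

theorem secRes_smul {W W' : X.Opens} (h : W' ≤ W) (r : Γ(X, W)) (a : Sec U u W) :
    secRes U u h (r • a) = resO X h r • secRes U u h a := by
  apply Subtype.ext
  funext i
  simp only [secRes_val, smul_val, resO_mul, resO_resO]

theorem secRes_id {W : X.Opens} (a : Sec U u W) : secRes U u (le_refl W) a = a := by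
  apply Subtype.ext
  funext i
  rw [secRes_val]
  exact resO_id X _

theorem secRes_secRes {W W' W'' : X.Opens} (h : W' ≤ W) (h' : W'' ≤ W') (a : Sec U u W) :
    secRes U u h' (secRes U u h a) = secRes U u (h'.trans h) a := by
  apply Subtype.ext
  funext i
  simp only [secRes_val, resO_resO]

noncomputable instance instModuleSec (W : (Opens X)ᵒᵖ) :
    Module (X.ringCatSheaf.obj.obj W) (Sec U u W.unop) :=
  inferInstanceAs (Module Γ(X, W.unop) (Sec U u W.unop))

/-- The presheaf of modules defined by a cocycle. -/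
noncomputable def mkPresheaf : PresheafOfModules.{u} X.ringCatSheaf.obj where
  obj W := ModuleCat.of (X.ringCatSheaf.obj.obj W) (Sec U u W.unop)
  map {W W'} f := ModuleCat.ofHom
      (Y := (ModuleCat.restrictScalars (X.ringCatSheaf.obj.map f).hom).obj
        (ModuleCat.of (X.ringCatSheaf.obj.obj W') (Sec U u W'.unop)))
    { toFun := fun a => secRes U u (leOfHom f.unop) a
      map_add' := fun a b => secRes_add U u (leOfHom f.unop) a b
      map_smul' := fun r a => secRes_smul U u (leOfHom f.unop) r a }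
  map_id W := by
    ext a
    exact secRes_id U u a
  map_comp f g := by
    ext a
    exact (secRes_secRes U u (leOfHom f.unop) (leOfHom g.unop) a).symm

theorem mkPresheaf_map_apply {W W' : X.Opens} (h : W' ≤ W) (a : Sec U u W) :
    ((mkPresheaf U u).presheaf.map (homOfLE h).op a : Sec U u W') = secRes U u h a := rfl

theorem inf_iSup_le {κ : Type*} (W : κ → X.Opens) (V : X.Opens) :
    iSup W ⊓ V ≤ ⨆ α, W α ⊓ V := by
  rintro x ⟨hx, hxV⟩
  obtain ⟨α, hα⟩ := Opens.mem_iSup.mp hx
  exact Opens.mem_iSup.mpr ⟨α, hα, hxV⟩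

/-- The presheaf defined by a cocycle is a sheaf. -/
theorem mkPresheaf_isSheaf : TopCat.Presheaf.IsSheaf (mkPresheaf U u).presheaf := by
  rw [TopCat.Presheaf.isSheaf_iff_isSheafUniqueGluing]
  intro κ W sf hsf
  change ∀ α, Sec U u (W α) at sf
  have hcompat : ∀ α β, secRes U u inf_le_left (sf α) = secRes U u inf_le_right (sf β) :=
    fun α β => hsf α β
  have hglue : ∀ i, ∃! a : Γ(X, iSup W ⊓ U i),
      ∀ α, resO X (inf_le_inf_right (U i) (le_iSup W α)) a = (sf α).1 i := by
    intro i
    refine TopCat.Sheaf.existsUnique_gluing' X.sheaf (fun α => W α ⊓ U i) (iSup W ⊓ U i)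
      (fun α => homOfLE (inf_le_inf_right _ (le_iSup W α))) (inf_iSup_le W (U i))
      (fun α => (sf α).1 i) ?_
    intro α β
    have h1 := congrArg (fun t : Sec U u (W α ⊓ W β) => t.1 i) (hcompat α β)
    simp only [secRes_val] at h1
    have h2 := congrArg (resO X (le_inf (inf_le_inf inf_le_left inf_le_left)
      (inf_le_left.trans inf_le_right) : (W α ⊓ U i) ⊓ (W β ⊓ U i) ≤ (W α ⊓ W β) ⊓ U i)) h1
    simp only [resO_resO] at h2
    exact h2
  choose a ha ha' using hglue
  have hsec : IsSec U u (iSup W) a := by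
    intro i j
    refine eq_of_resO_eq X (fun α => W α ⊓ U i ⊓ U j) _
      (fun α => inf_le_inf_right _ (inf_le_inf_right _ (le_iSup W α))) ?_ _ _ ?_
    · rintro x ⟨⟨hx, hxi⟩, hxj⟩
      obtain ⟨α, hα⟩ := Opens.mem_iSup.mp hx
      exact Opens.mem_iSup.mpr ⟨α, ⟨hα, hxi⟩, hxj⟩
    · intro α
      have h1 := (sf α).2 i j
      rw [← ha i α, ← ha j α] at h1
      simp only [resO_mul, resO_resO] at h1 ⊢
      exact h1
  refine ⟨(⟨a, hsec⟩ : Sec U u (iSup W)), ?_, ?_⟩
  · intro α
    apply Subtype.ext
    funext i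
    exact ha i α
  · intro s hs
    change Sec U u (iSup W) at s
    apply Subtype.ext
    funext i
    refine ha' i (s.1 i) fun α => ?_
    have := congrArg (fun t : Sec U u (W α) => t.1 i) (hs α)
    exact this

/-- The sheaf of modules defined by a cocycle. -/
noncomputable def mkSheaf : X.Modules where
  val := mkPresheaf U u
  isSheaf := mkPresheaf_isSheaf U u

/-- A family of coordinates as a section of the sheaf. -/
noncomputable def toΓ {W : X.Opens} (a : Sec U u W) : Γ(mkSheaf U u, W) := a

/-- The coordinates of a section of the sheaf. -/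
noncomputable def ofΓ {W : X.Opens} (t : Γ(mkSheaf U u, W)) : Sec U u W := t

theorem ofΓ_toΓ {W : X.Opens} (a : Sec U u W) : ofΓ U u (toΓ U u a) = a := rfl

theorem toΓ_ofΓ {W : X.Opens} (t : Γ(mkSheaf U u, W)) : toΓ U u (ofΓ U u t) = t := rfl

theorem toΓ_injective {W : X.Opens} : Function.Injective (toΓ U u (W := W)) :=
  fun _ _ h => h

theorem resM_toΓ {W W' : X.Opens} (h : W' ≤ W) (a : Sec U u W) :
    resM (mkSheaf U u) h (toΓ U u a) = toΓ U u (secRes U u h a) := rfl

theorem smul_toΓ {W : X.Opens} (r : Γ(X, W)) (a : Sec U u W) :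
    r • toΓ U u a = toΓ U u (r • a) := rfl

section Gen

variable {U u}

theorem cocycle_resO (hu : IsCocycle U u) (i j k : ι) :
    resO X (le_inf (inf_le_left.trans inf_le_left) inf_le_right :
        U i ⊓ U j ⊓ U k ≤ U i ⊓ U k) (u i k) =
      resO X (inf_le_left : U i ⊓ U j ⊓ U k ≤ U i ⊓ U j) (u i j) *
      resO X (le_inf (inf_le_left.trans inf_le_right) inf_le_right :
        U i ⊓ U j ⊓ U k ≤ U j ⊓ U k) (u j k) :=
  hu.2 i j k

/-- The cocycle identity on any open contained in the triple intersection. -/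
theorem cocycle_resO' (hu : IsCocycle U u) (i j k : ι) (W : X.Opens) (hi : W ≤ U i)
    (hj : W ≤ U j) (hk : W ≤ U k) :
    resO X (le_inf hi hk) (u i k) = resO X (le_inf hi hj) (u i j) * resO X (le_inf hj hk) (u j k) := by
  have h := congrArg (resO X (le_inf (le_inf hi hj) hk : W ≤ U i ⊓ U j ⊓ U k))
    (cocycle_resO hu i j k)
  simp only [resO_mul, resO_resO] at h
  exact h

/-- The generating sections of the sheaf defined by a cocycle. -/
noncomputable def gen (hu : IsCocycle U u) (i : ι) : Sec U u (U i) :=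
  ⟨fun j => resO X (le_inf inf_le_right inf_le_left : U i ⊓ U j ≤ U j ⊓ U i) (u j i), by
    intro j k
    simp only [resO_resO]
    rw [cocycle_resO' hu j k i (U i ⊓ U j ⊓ U k) (inf_le_left.trans inf_le_right) inf_le_right
      (inf_le_left.trans inf_le_left), mul_comm]⟩

theorem gen_val (hu : IsCocycle U u) (i j : ι) :
    (gen hu i).1 j = resO X (le_inf inf_le_right inf_le_left : U i ⊓ U j ≤ U j ⊓ U i) (u j i) :=
  rfl

theorem isGen_gen (hu : IsCocycle U u) (i : ι) :
    IsGen (mkSheaf U u) (U i) (toΓ U u (gen hu i)) := by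
  rw [isGen_iff]
  intro W h
  have hii : resO X (le_inf inf_le_right inf_le_right : W ⊓ U i ≤ U i ⊓ U i) (u i i) = 1 := by
    rw [hu.1 i, resO_one]
  constructor
  · intro r r' hrr'
    simp only [resM_toΓ, smul_toΓ] at hrr'
    have h1 := congrArg (fun t : Sec U u W => t.1 i) (toΓ_injective U u hrr')
    simp only [smul_val, secRes_val, gen_val, resO_resO, hii, mul_one] at h1
    have h2 := congrArg (resO X (le_inf le_rfl h : W ≤ W ⊓ U i)) h1
    simpa only [resO_resO, resO_id] using h2
  · intro t
    refine ⟨resO X (le_inf le_rfl h : W ≤ W ⊓ U i) ((ofΓ U u t).1 i), ?_⟩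
    rw [← toΓ_ofΓ U u t]
    simp only [resM_toΓ, smul_toΓ, ofΓ_toΓ]
    congr 1
    apply Subtype.ext
    funext j
    simp only [smul_val, secRes_val, gen_val, resO_resO]
    have h1 := (ofΓ U u t).2 j i
    have h2 := congrArg (resO X (le_inf le_rfl (inf_le_left.trans h) :
      W ⊓ U j ≤ W ⊓ U j ⊓ U i)) h1
    simp only [resO_mul, resO_resO, resO_id] at h2
    exact h2.symm

theorem isCocycleOf_gen (hu : IsCocycle U u) :
    IsCocycleOf (mkSheaf U u) U (fun i => toΓ U u (gen hu i)) u := by
  intro i j
  change resM (mkSheaf U u) inf_le_right (toΓ U u (gen hu j)) =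
    u i j • resM (mkSheaf U u) inf_le_left (toΓ U u (gen hu i))
  simp only [resM_toΓ, smul_toΓ]
  congr 1
  apply Subtype.ext
  funext k
  simp only [smul_val, secRes_val, gen_val, resO_resO]
  rw [cocycle_resO' hu k i j (U i ⊓ U j ⊓ U k) inf_le_right (inf_le_left.trans inf_le_left)
    (inf_le_left.trans inf_le_right), mul_comm]

end Gen

/-- **B-MK**: every cocycle on an open cover is the family of transition functions of generating
sections of a sheaf of modules. -/
theorem stmt_BMK : Stmt_BMK.{u} := by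
  intro X ι U _ u hu
  exact ⟨mkSheaf U u, fun i => toΓ U u (gen hu i), isGen_gen hu, isCocycleOf_gen hu⟩

end Fermat.Agent.S25.Glue.H56
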