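import Fermat.Agent.S25.Glue.H56_Iso
import Fermat.Agent.S25.Glue.H56_Mk

/-!
# S25, package GLUE: generating sections are a local notion (helper18)

`isGen_of_cover`: a section which generates on every member of an open cover generates.
-/

set_option autoImplicit false

open CategoryTheory AlgebraicGeometry TopologicalSpace

universe u

namespace Fermat.Agent.S25.Glue.H18

open Fermat.Agent.S25.Glue Fermat.Agent.S25.Glue.H56

variable {X : Scheme.{u}}

/-- gluing of functions -/
theorem exists_glue_resO (X : Scheme.{u}) {κ : Type u} (V : κ → X.Opens) (W : X.Opens)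
    (hV : ∀ k, V k ≤ W) (hW : W ≤ ⨆ k, V k) (a : ∀ k, Γ(X, V k))
    (h : ∀ k l, resO X (inf_le_left : V k ⊓ V l ≤ V k) (a k) =
      resO X (inf_le_right : V k ⊓ V l ≤ V l) (a l)) :
    ∃ b : Γ(X, W), ∀ k, resO X (hV k) b = a k := by
  obtain ⟨b, hb, -⟩ := TopCat.Sheaf.existsUnique_gluing' X.sheaf V W (fun k => homOfLE (hV k)) hW a
    (fun k l => h k l)
  exact ⟨b, hb⟩

/-- **generating is local**: if `s` generates on every `U ⊓ V i` and the `V i` cover `U`, then
`s` generates on `U`. -/
theorem isGen_of_cover (M : X.Modules) (U : X.Opens) (s : Γ(M, U)) {κ : Type u}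
    (V : κ → X.Opens) (hV : U ≤ ⨆ k, V k)
    (h : ∀ k, IsGen M (U ⊓ V k) (resM M (inf_le_left : U ⊓ V k ≤ U) s)) : IsGen M U s := by
  rw [isGen_iff]
  intro W hW
  have hWV : W ≤ ⨆ k, W ⊓ V k := by
    intro x hx
    obtain ⟨k, hk⟩ := Opens.mem_iSup.mp (hV (hW hx))
    exact Opens.mem_iSup.mpr ⟨k, hx, hk⟩
  -- the local bijections
  have hloc : ∀ (k : κ) (W' : X.Opens) (h1 : W' ≤ W) (h2 : W' ≤ V k),
      Function.Bijective (fun a : Γ(X, W') => a • resM M (h1.trans hW) s) := by
    intro k W' h1 h2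
    have := (isGen_iff.1 (h k)) W' (le_inf (h1.trans hW) h2)
    simpa only [resM_resM] using this
  constructor
  · intro a b hab
    refine eq_of_resO_eq X (fun k => W ⊓ V k) W (fun k => inf_le_left) hWV a b (fun k => ?_)
    apply (hloc k (W ⊓ V k) inf_le_left inf_le_right).1
    have := congrArg (resM M (inf_le_left : W ⊓ V k ≤ W)) hab
    simpa only [resM_smul, resM_resM] using this
  · intro t
    have hex : ∀ k, ∃ a : Γ(X, W ⊓ V k),
        a • resM M ((inf_le_left : W ⊓ V k ≤ W).trans hW) s =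
          resM M (inf_le_left : W ⊓ V k ≤ W) t :=
      fun k => (hloc k (W ⊓ V k) inf_le_left inf_le_right).2 _
    choose a ha using hex
    obtain ⟨b, hb⟩ := exists_glue_resO X (fun k => W ⊓ V k) W (fun k => inf_le_left) hWV a
      (by
        intro k l
        apply (hloc k ((W ⊓ V k) ⊓ (W ⊓ V l)) (inf_le_left.trans inf_le_left)
          (inf_le_left.trans inf_le_right)).1
        change resO X _ (a k) • resM M _ s = resO X _ (a l) • resM M _ s
        have h1 := congrArg (resM M (inf_le_left : (W ⊓ V k) ⊓ (W ⊓ V l) ≤ W ⊓ V k)) (ha k)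
        have h2 := congrArg (resM M (inf_le_right : (W ⊓ V k) ⊓ (W ⊓ V l) ≤ W ⊓ V l)) (ha l)
        simp only [resM_smul, resM_resM] at h1 h2
        rw [h1, h2])
    refine ⟨b, ?_⟩
    refine eq_of_resM_eq M V W (hW.trans hV) _ _ (fun k => ?_)
    change resM M _ (b • resM M hW s) = _
    rw [resM_smul, resM_resM, hb k, ha k]

end Fermat.Agent.S25.Glue.H18
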