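import Mathlib
import Fermat.Prelude.Def_AlgebraicGeometry_RelativePicardFunctor

/-!
# S25, packages GLUE + BRIDGE (risk R2): interface (sub-planner helper18)

The prelude speaks about invertible sheaves of modules `M : X.Modules` and about isomorphisms
`(Scheme.Modules.pullback f).obj M ≅ M'`.  The rest of S25 is commutative algebra.  The bridge is
the language of **generating sections and unit cocycles**:

* `IsGen M U s` : the section `s ∈ Γ(M, U)` generates `M` freely over `U`
  (for every open `V ≤ U` the map `a ↦ a • s|_V` is a bijection `Γ(X, V) → Γ(M, V)`);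
* `IsCocycleOf M U s u` : `s j = u i j • s i` on `U i ⊓ U j` (the transition functions of `M`);
* `IsCocycle U u` : `u i i = 1` and `u i j * u j k = u i k` on triple overlaps.

Leaves (all about ARBITRARY schemes, Mathlib + the prelude definition `IsInvertible` only):

| leaf | statement | content | owner |
|---|---|---|---|
| B-GEN | `Stmt_BGEN` | `IsInvertible M` ⟺ generating sections exist locally | helper18 |
| B-PULL | `Stmt_BPULL` | sections pull back along any `f : Y ⟶ X` (semilinear, compatible with restriction) and generating sections stay generating: cocycle of `f^* M` = `f^♯` (cocycle of `M`) | helper18 |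
| B-ISO | `Stmt_BISO` | same cover, same cocycle ⟹ isomorphic | helper56 |
| B-MK | `Stmt_BMK` | every unit cocycle on an open cover is the cocycle of a sheaf | helper56 |

Easy lemmas (file `S25/Glue/H18_Gen.lean`, helper18): `IsGen.mono`, `IsGen.of_iso`, `isGen_unit`,
`isGen_restrict_of`, `isGen_of_restrict`, change of generator by a unit, uniqueness of coefficients.
With them: `M ≅ M'` ⟺ the cocycles are cohomologous on a common refinement, and
"`(1 × g)^* Poin ≅ M`" becomes an identity between cocycles.
-/

set_option autoImplicit false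

open CategoryTheory AlgebraicGeometry TopologicalSpace

universe u

namespace Fermat.Agent.S25.Glue

variable {X : Scheme.{u}}

/-- `s ∈ Γ(M, U)` generates `M` freely over `U`: for every open `V ≤ U` the map
`a ↦ a • s|_V` is a bijection `Γ(X, V) → Γ(M, V)`. -/
def IsGen (M : X.Modules) (U : X.Opens) (s : Γ(M, U)) : Prop :=
  ∀ (V : X.Opens) (h : V ≤ U), Function.Bijective
    (fun a : Γ(X, V) => a • M.presheaf.map (homOfLE h).op s)

/-- the structure sheaf as a module over itself -/
noncomputable abbrev unitM (X : Scheme.{u}) : X.Modules := SheafOfModules.unit X.ringCatSheaf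

/-- the unit section of the structure sheaf as a section of the unit module -/
noncomputable def oneSec (X : Scheme.{u}) (U : X.Opens) : Γ(unitM X, U) :=
  (1 : Γ(X, U))

/-- `u` is the family of transition functions of the sections `s i`: `s j = u i j • s i` on
`U i ⊓ U j`. -/
def IsCocycleOf (M : X.Modules) {ι : Type u} (U : ι → X.Opens) (s : ∀ i, Γ(M, U i))
    (u : ∀ i j, Γ(X, U i ⊓ U j)) : Prop :=
  ∀ i j, M.presheaf.map (homOfLE (inf_le_right : U i ⊓ U j ≤ U j)).op (s j) =
    u i j • M.presheaf.map (homOfLE (inf_le_left : U i ⊓ U j ≤ U i)).op (s i)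

/-- the cocycle identities -/
def IsCocycle {ι : Type u} (U : ι → X.Opens) (u : ∀ i j, Γ(X, U i ⊓ U j)) : Prop :=
  (∀ i, u i i = 1) ∧
  ∀ i j k,
    X.presheaf.map (homOfLE (le_inf (inf_le_left.trans inf_le_left) inf_le_right :
        U i ⊓ U j ⊓ U k ≤ U i ⊓ U k)).op (u i k) =
      X.presheaf.map (homOfLE (inf_le_left : U i ⊓ U j ⊓ U k ≤ U i ⊓ U j)).op (u i j) *
      X.presheaf.map (homOfLE (le_inf (inf_le_left.trans inf_le_right) inf_le_right :
        U i ⊓ U j ⊓ U k ≤ U j ⊓ U k)).op (u j k)

/-- **B-GEN**: invertible ⟺ locally freely generated by one section. -/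
def Stmt_BGEN : Prop :=
  ∀ (X : Scheme.{u}) (M : X.Modules),
    Scheme.Modules.IsInvertible M ↔ ∀ x : X, ∃ U : X.Opens, x ∈ U ∧ ∃ s : Γ(M, U), IsGen M U s

/-- **B-PULL**: sections pull back along every morphism, semilinearly and compatibly with
restriction, and generating sections pull back to generating sections. -/
def Stmt_BPULL : Prop :=
  ∀ {X Y : Scheme.{u}} (f : Y ⟶ X) (M : X.Modules),
    ∃ p : ∀ U : X.Opens, Γ(M, U) → Γ((Scheme.Modules.pullback f).obj M, f ⁻¹ᵁ U),
      (∀ (U : X.Opens) (s : Γ(M, U)), IsGen M U s →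
        IsGen ((Scheme.Modules.pullback f).obj M) (f ⁻¹ᵁ U) (p U s)) ∧
      (∀ (U V : X.Opens) (h : V ≤ U) (s : Γ(M, U)),
        p V (M.presheaf.map (homOfLE h).op s) =
          ((Scheme.Modules.pullback f).obj M).presheaf.map
            (homOfLE (show f ⁻¹ᵁ V ≤ f ⁻¹ᵁ U from fun _ hy => h hy)).op (p U s)) ∧
      (∀ (U : X.Opens) (a : Γ(X, U)) (s : Γ(M, U)), p U (a • s) = f.app U a • p U s) ∧
      (∀ (U : X.Opens) (s t : Γ(M, U)), p U (s + t) = p U s + p U t)

/-- **B-ISO**: two sheaves of modules with generating sections on the same cover and the same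
transition functions are isomorphic. -/
def Stmt_BISO : Prop :=
  ∀ (X : Scheme.{u}) (M M' : X.Modules) {ι : Type u} (U : ι → X.Opens)
    (_ : ∀ x : X, ∃ i, x ∈ U i)
    (s : ∀ i, Γ(M, U i)) (s' : ∀ i, Γ(M', U i))
    (_ : ∀ i, IsGen M (U i) (s i)) (_ : ∀ i, IsGen M' (U i) (s' i))
    (u : ∀ i j, Γ(X, U i ⊓ U j)),
    IsCocycleOf M U s u → IsCocycleOf M' U s' u → Nonempty (M ≅ M')

/-- **B-MK**: every cocycle on an open cover is the family of transition functions of generating
sections of some sheaf of modules. -/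
def Stmt_BMK : Prop :=
  ∀ (X : Scheme.{u}) {ι : Type u} (U : ι → X.Opens) (_ : ∀ x : X, ∃ i, x ∈ U i)
    (u : ∀ i j, Γ(X, U i ⊓ U j)), IsCocycle U u →
    ∃ (M : X.Modules) (s : ∀ i, Γ(M, U i)), (∀ i, IsGen M (U i) (s i)) ∧ IsCocycleOf M U s u

end Fermat.Agent.S25.Glue
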