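import Fermat.Agent.S25.Glue.Defs

/-!
# S25, package GLUE: basic lemmas on generating sections (helper18)

`isGen_unit`, `IsGen.mono`, `IsGen.of_iso`, `app_map`, restriction along open immersions
(`isGen_restrict_of`, `isGen_of_restrict`).
-/

set_option autoImplicit false

open CategoryTheory AlgebraicGeometry TopologicalSpace

universe u

namespace Fermat.Agent.S25.Glue

variable {X : Scheme.{u}}

theorem isGen_unit (U : X.Opens) : IsGen (unitM X) U (oneSec X U) := by
  intro V h
  have : (fun a : Γ(X, V) => a • (unitM X).presheaf.map (homOfLE h).op (oneSec X U)) =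
      fun a => (a : Γ(X, V)) := by
    funext a
    change a * X.presheaf.map (homOfLE h).op (1 : Γ(X, U)) = a
    rw [map_one, mul_one]
  rw [this]
  exact Function.bijective_id

theorem IsGen.bijective_of_eq {M : X.Modules} {U : X.Opens} {s : Γ(M, U)} {V V' : X.Opens}
    (e : V = V') (h : V ≤ U) (h' : V' ≤ U)
    (hb : Function.Bijective (fun a : Γ(X, V) => a • M.presheaf.map (homOfLE h).op s)) :
    Function.Bijective (fun a : Γ(X, V') => a • M.presheaf.map (homOfLE h').op s) := by
  subst e
  exact hb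

theorem IsGen.mono {M : X.Modules} {U V : X.Opens} {s : Γ(M, U)} (hs : IsGen M U s) (h : V ≤ U) :
    IsGen M V (M.presheaf.map (homOfLE h).op s) := by
  intro W hW
  have := hs W (hW.trans h)
  convert this using 2
  rename_i a
  rw [← ConcreteCategory.comp_apply, ← Functor.map_comp]
  rfl

/-- morphisms of modules commute with restriction of sections -/
theorem app_map {M N : X.Modules} (φ : M ⟶ N) {U V : X.Opens} (h : V ≤ U) (s : Γ(M, U)) :
    φ.app V (M.presheaf.map (homOfLE h).op s) = N.presheaf.map (homOfLE h).op (φ.app U s) :=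
  ConcreteCategory.congr_hom (φ.mapPresheaf.naturality (homOfLE h).op) s

theorem IsGen.of_iso {M N : X.Modules} (e : M ≅ N) {U : X.Opens} {s : Γ(M, U)}
    (hs : IsGen M U s) : IsGen N U (e.hom.app U s) := by
  intro V h
  have h1 := hs V h
  have h2 : Function.Bijective (e.hom.app V) :=
    (ConcreteCategory.isIso_iff_bijective _).1 inferInstance
  have := h2.comp h1
  convert this using 1
  funext a
  simp only [Function.comp_apply]
  rw [Scheme.Modules.Hom.app_smul]
  congr 1
  exact (ConcreteCategory.congr_hom (e.hom.mapPresheaf.naturality (homOfLE h).op) s).symm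

section Restrict

variable {Y : Scheme.{u}} (f : Y ⟶ X) [IsOpenImmersion f]

/-- the scalar action on the restriction along an open immersion -/
theorem restrict_smul (M : X.Modules) (V' : Y.Opens) (b : Γ(Y, V')) (m : Γ(M, f ''ᵁ V')) :
    (b • (show Γ(M.restrict f, V') from m) : Γ(M.restrict f, V')) =
      (show Γ(M.restrict f, V') from ((f.appIso V').inv b • m : Γ(M, f ''ᵁ V'))) := rfl

theorem restrict_map' (M : X.Modules) {V' W' : Y.Opens} (h : W' ≤ V') (m : Γ(M, f ''ᵁ V')) :
    ((M.restrict f).presheaf.map (homOfLE h).op (show Γ(M.restrict f, V') from m) :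
        Γ(M.restrict f, W')) =
      (show Γ(M.restrict f, W') from
        (M.presheaf.map (homOfLE (f.image_mono h)).op m : Γ(M, f ''ᵁ W'))) := rfl

theorem isGen_restrict_of (M : X.Modules) (V' : Y.Opens) (s : Γ(M, f ''ᵁ V'))
    (hs : IsGen M (f ''ᵁ V') s) : IsGen (M.restrict f) V' (show Γ(M.restrict f, V') from s) := by
  intro W' hW'
  have h1 := hs (f ''ᵁ W') (f.image_mono hW')
  have h2 : Function.Bijective (f.appIso W').inv :=
    (ConcreteCategory.isIso_iff_bijective _).1 inferInstance
  exact h1.comp h2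

theorem isGen_of_restrict (M : X.Modules) (V' : Y.Opens) (s : Γ(M, f ''ᵁ V'))
    (hs : IsGen (M.restrict f) V' (show Γ(M.restrict f, V') from s)) : IsGen M (f ''ᵁ V') s := by
  intro W hW
  have hW' : f ⁻¹ᵁ W ≤ V' := by
    intro y hy
    obtain ⟨y', hy', e⟩ := hW hy
    exact (f.isOpenEmbedding.injective e) ▸ hy'
  have h1 := hs (f ⁻¹ᵁ W) hW'
  have h2 : Function.Bijective (f.appIso (f ⁻¹ᵁ W)).hom :=
    (ConcreteCategory.isIso_iff_bijective _).1 inferInstance
  have h3' : Function.Bijective (fun a : Γ(X, f ''ᵁ f ⁻¹ᵁ W) =>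
      ((f.appIso (f ⁻¹ᵁ W)).inv ((f.appIso (f ⁻¹ᵁ W)).hom a)) •
        M.presheaf.map (homOfLE (f.image_mono hW')).op s) := h1.comp h2
  have h3 : Function.Bijective (fun a : Γ(X, f ''ᵁ f ⁻¹ᵁ W) =>
      a • M.presheaf.map (homOfLE (f.image_mono hW')).op s) := by
    convert h3' using 2
    rename_i a
    simp
  have e : f ''ᵁ f ⁻¹ᵁ W = W := by
    apply le_antisymm
    · rintro _ ⟨y, hy, rfl⟩
      exact hy
    · intro x hx
      obtain ⟨y, -, e⟩ := hW hx
      refine ⟨y, ?_, e⟩
      change f y ∈ W
      exact e.symm ▸ hx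
  exact IsGen.bijective_of_eq e _ hW h3

end Restrict

end Fermat.Agent.S25.Glue
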