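import Fermat.Agent.S25.Glue.H18_Gen

/-!
# S25, package GLUE, leaf B-GEN (helper18)

`stmt_BGEN : Stmt_BGEN`: a sheaf of modules is invertible (prelude definition: locally the
pull-back along the open immersion is isomorphic to the unit) iff it has generating sections
locally.
-/

set_option autoImplicit false

open CategoryTheory AlgebraicGeometry TopologicalSpace

universe u

namespace Fermat.Agent.S25.Glue

variable {X : Scheme.{u}}

/-- the family of restrictions of a global section -/
noncomputable def sectionsOfTop (N : X.Modules) (t : Γ(N, ⊤)) : SheafOfModules.sections N :=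
  PresheafOfModules.sectionsMk (M := N.val)
    (fun V => (N.presheaf.map (homOfLE (le_top : V.unop ≤ ⊤)).op t : Γ(N, V.unop)))
    (by
      intro V W f
      change N.presheaf.map f (N.presheaf.map (homOfLE (le_top : V.unop ≤ ⊤)).op t) = _
      rw [← ConcreteCategory.comp_apply, ← Functor.map_comp]
      rfl)

/-- the morphism `𝒪 ⟶ N` attached to a global section -/
noncomputable def homOfTop (N : X.Modules) (t : Γ(N, ⊤)) : unitM X ⟶ N :=
  (SheafOfModules.unitHomEquiv N).symm (sectionsOfTop N t)

theorem homOfTop_app_one (N : X.Modules) (t : Γ(N, ⊤)) (V : X.Opens) :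
    (homOfTop N t).app V (oneSec X V) = N.presheaf.map (homOfLE (le_top : V ≤ ⊤)).op t := by
  have := congrArg (fun s => s.val (Opposite.op V))
    ((SheafOfModules.unitHomEquiv N).apply_symm_apply (sectionsOfTop N t))
  exact this

/-- a section of the unit module as a function -/
def ofUnit {V : X.Opens} (b : Γ(unitM X, V)) : Γ(X, V) := b

theorem eq_ofUnit_smul_one {V : X.Opens} (b : Γ(unitM X, V)) : b = ofUnit b • oneSec X V := by
  change (ofUnit b : Γ(X, V)) = ofUnit b * (1 : Γ(X, V))
  rw [mul_one]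

theorem ofUnit_bijective (V : X.Opens) :
    Function.Bijective (ofUnit : Γ(unitM X, V) → Γ(X, V)) := Function.bijective_id

theorem homOfTop_app (N : X.Modules) (t : Γ(N, ⊤)) (V : X.Opens) (b : Γ(unitM X, V)) :
    (homOfTop N t).app V b = ofUnit b • N.presheaf.map (homOfLE (le_top : V ≤ ⊤)).op t := by
  calc (homOfTop N t).app V b = (homOfTop N t).app V (ofUnit b • oneSec X V) := by
        rw [← eq_ofUnit_smul_one]
    _ = _ := by rw [Scheme.Modules.Hom.app_smul, homOfTop_app_one]

/-- a global generating section gives an isomorphism with the unit -/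
theorem isIso_homOfTop (N : X.Modules) (t : Γ(N, ⊤)) (ht : IsGen N ⊤ t) :
    IsIso (homOfTop N t) := by
  rw [Scheme.Modules.Hom.isIso_iff_isIso_app]
  intro V
  rw [ConcreteCategory.isIso_iff_bijective]
  have h := (ht V le_top).comp (ofUnit_bijective V)
  have e : (⇑(ConcreteCategory.hom ((homOfTop N t).app V)) : Γ(unitM X, V) → Γ(N, V)) =
      (fun a : Γ(X, V) => a • N.presheaf.map (homOfLE (le_top : V ≤ ⊤)).op t) ∘ ofUnit := by
    funext b
    exact homOfTop_app N t V b
  rw [e]
  exact h

/-- a global generating section gives an isomorphism with the unit -/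
theorem nonempty_iso_unit_of_isGen (N : X.Modules) (t : Γ(N, ⊤)) (ht : IsGen N ⊤ t) :
    Nonempty (N ≅ unitM X) :=
  haveI := isIso_homOfTop N t ht
  ⟨(asIso (homOfTop N t)).symm⟩

/-- an isomorphism with the unit gives a global generating section -/
theorem exists_isGen_of_iso_unit (N : X.Modules) (e : N ≅ unitM X) :
    ∃ t : Γ(N, ⊤), IsGen N ⊤ t :=
  ⟨_, (isGen_unit (X := X) ⊤).of_iso e.symm⟩

theorem image_top_le (U : X.Opens) : U.ι ''ᵁ (⊤ : U.toScheme.Opens) ≤ U := by
  rintro _ ⟨y, -, rfl⟩
  exact y.2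

theorem le_image_top (U : X.Opens) : U ≤ U.ι ''ᵁ (⊤ : U.toScheme.Opens) := by
  intro x hx
  exact ⟨⟨x, hx⟩, trivial, rfl⟩

/-- **B-GEN** -/
theorem stmt_BGEN : Stmt_BGEN.{u} := by
  intro X M
  constructor
  · intro hM x
    obtain ⟨U, hxU, ⟨e⟩⟩ := hM.exists_trivialization x
    let e' : M.restrict U.ι ≅ unitM U.toScheme :=
      (Scheme.Modules.restrictFunctorIsoPullback U.ι).app M ≪≫ e
    obtain ⟨t, ht⟩ := exists_isGen_of_iso_unit (M.restrict U.ι) e'
    exact ⟨U.ι ''ᵁ ⊤, le_image_top U hxU, t, isGen_of_restrict U.ι M ⊤ t ht⟩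
  · intro h
    refine ⟨fun x => ?_⟩
    obtain ⟨U, hxU, s, hs⟩ := h x
    refine ⟨U, hxU, ?_⟩
    have h1 := hs.mono (image_top_le U)
    have h2 := isGen_restrict_of U.ι M ⊤ _ h1
    obtain ⟨e⟩ := nonempty_iso_unit_of_isGen (M.restrict U.ι) _ h2
    exact ⟨((Scheme.Modules.restrictFunctorIsoPullback U.ι).app M).symm ≪≫ e⟩

end Fermat.Agent.S25.Glue
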