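import Fermat.Agent.S25.Glue.H18_BGen

/-!
# S25, package GLUE, leaf B-PULL (helper18)

Sections of the pull-back `f^* M` of a sheaf of modules: `pullSec f M U : Γ(M, U) → Γ(f^* M, f⁻¹U)`
(the unit of the adjunction `pullback f ⊣ pushforward f`), semilinear and compatible with
restriction; generating sections pull back to generating sections.
-/

set_option autoImplicit false

open CategoryTheory AlgebraicGeometry TopologicalSpace

universe u

namespace Fermat.Agent.S25.Glue

variable {X Y : Scheme.{u}}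

/-- the pull-back of a section along `f` -/
noncomputable def pullSec (f : Y ⟶ X) (M : X.Modules) (U : X.Opens) (s : Γ(M, U)) :
    Γ((Scheme.Modules.pullback f).obj M, f ⁻¹ᵁ U) :=
  ((Scheme.Modules.pullbackPushforwardAdjunction f).unit.app M).app U s

theorem pullSec_add (f : Y ⟶ X) (M : X.Modules) (U : X.Opens) (s t : Γ(M, U)) :
    pullSec f M U (s + t) = pullSec f M U s + pullSec f M U t :=
  map_add _ s t

theorem pullSec_smul (f : Y ⟶ X) (M : X.Modules) (U : X.Opens) (a : Γ(X, U)) (s : Γ(M, U)) :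
    pullSec f M U (a • s) = f.app U a • pullSec f M U s :=
  Scheme.Modules.Hom.app_smul _ a s

theorem pullSec_res (f : Y ⟶ X) (M : X.Modules) {U V : X.Opens} (h : V ≤ U) (s : Γ(M, U)) :
    pullSec f M V (M.presheaf.map (homOfLE h).op s) =
      ((Scheme.Modules.pullback f).obj M).presheaf.map
        (homOfLE (show f ⁻¹ᵁ V ≤ f ⁻¹ᵁ U from fun _ hy => h hy)).op (pullSec f M U s) :=
  app_map ((Scheme.Modules.pullbackPushforwardAdjunction f).unit.app M) h s

/-- naturality of `pullSec` in the module -/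
theorem pullSec_naturality (f : Y ⟶ X) {M M' : X.Modules} (φ : M ⟶ M') (U : X.Opens)
    (s : Γ(M, U)) :
    pullSec f M' U (φ.app U s) = ((Scheme.Modules.pullback f).map φ).app (f ⁻¹ᵁ U) (pullSec f M U s) := by
  have := (Scheme.Modules.pullbackPushforwardAdjunction f).unit.naturality φ
  have h2 := congrArg (fun ψ => (Scheme.Modules.Hom.app ψ U) s) this
  exact h2

theorem iso_inv_hom_app {M N : X.Modules} (e : M ≅ N) (V : X.Opens) (x : Γ(M, V)) :
    e.inv.app V (e.hom.app V x) = x :=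
  congrArg (fun ψ : M ⟶ M => (Scheme.Modules.Hom.app ψ V) x) e.hom_inv_id

theorem iso_hom_inv_app {M N : X.Modules} (e : M ≅ N) (V : X.Opens) (x : Γ(N, V)) :
    e.hom.app V (e.inv.app V x) = x :=
  congrArg (fun ψ : N ⟶ N => (Scheme.Modules.Hom.app ψ V) x) e.inv_hom_id

/-- the prelude's isomorphism `f^* 𝒪_X ≅ 𝒪_Y`, typed in `Y.Modules` -/
noncomputable def pullUnitIso (f : Y ⟶ X) :
    (Scheme.Modules.pullback f).obj (unitM X) ≅ unitM Y :=
  Scheme.Modules.pullbackUnitIso f

/-- the pull-back of the unit section is the unit section -/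
theorem pullUnitIso_pullSec_one (f : Y ⟶ X) (U : X.Opens) :
    (pullUnitIso f).hom.app (f ⁻¹ᵁ U) (pullSec f (unitM X) U (oneSec X U)) =
      oneSec Y (f ⁻¹ᵁ U) := by
  have : (SheafOfModules.pushforward.{u} f.toRingCatSheafHom).IsRightAdjoint :=
    inferInstanceAs ((Scheme.Modules.pushforward f).IsRightAdjoint)
  have h1 := SheafOfModules.pullbackPushforwardAdjunction_homEquiv_pullbackObjUnitToUnit
    f.toRingCatSheafHom
  rw [Adjunction.homEquiv_unit] at h1
  have h2 := congrArg (fun ψ : unitM X ⟶ (Scheme.Modules.pushforward f).obj (unitM Y) =>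
    (Scheme.Modules.Hom.app ψ U) (oneSec X U)) h1
  refine h2.trans ?_
  change (f.app U) (1 : Γ(X, U)) = (1 : Γ(Y, f ⁻¹ᵁ U))
  exact map_one _

theorem pullSec_one_eq (f : Y ⟶ X) (U : X.Opens) :
    pullSec f (unitM X) U (oneSec X U) =
      (pullUnitIso f).inv.app (f ⁻¹ᵁ U) (oneSec Y (f ⁻¹ᵁ U)) := by
  rw [← pullUnitIso_pullSec_one f U, iso_inv_hom_app]

/-- the pull-back of the unit section generates -/
theorem isGen_pullSec_one (f : Y ⟶ X) (U : X.Opens) :
    IsGen ((Scheme.Modules.pullback f).obj (unitM X)) (f ⁻¹ᵁ U)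
      (pullSec f (unitM X) U (oneSec X U)) := by
  rw [pullSec_one_eq]
  exact (isGen_unit (X := Y) (f ⁻¹ᵁ U)).of_iso (pullUnitIso f).symm

/-- **global case**: a global generating section pulls back to a generating section -/
theorem isGen_pullSec_top (f : Y ⟶ X) (M : X.Modules) (s : Γ(M, ⊤)) (hs : IsGen M ⊤ s) :
    IsGen ((Scheme.Modules.pullback f).obj M) (f ⁻¹ᵁ ⊤) (pullSec f M ⊤ s) := by
  have := isIso_homOfTop M s hs
  have e1 : (homOfTop M s).app ⊤ (oneSec X ⊤) = s := by
    rw [homOfTop_app_one]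
    exact ConcreteCategory.congr_hom (M.presheaf.map_id _) s
  have e2 := pullSec_naturality f (homOfTop M s) ⊤ (oneSec X ⊤)
  rw [e1] at e2
  rw [e2]
  exact (isGen_pullSec_one f ⊤).of_iso ((Scheme.Modules.pullback f).mapIso (asIso (homOfTop M s)))

theorem IsGen.of_res {M : X.Modules} {U V : X.Opens} (h : V ≤ U) (h' : U ≤ V) {s : Γ(M, U)}
    (hs : IsGen M V (M.presheaf.map (homOfLE h).op s)) : IsGen M U s := by
  intro W hW
  have := hs W (hW.trans h')
  convert this using 2
  rename_i a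
  rw [← ConcreteCategory.comp_apply, ← Functor.map_comp]
  rfl

/-- the global case for an open which is the whole space -/
theorem isGen_pullSec_of_top_le (f : Y ⟶ X) (M : X.Modules) (V : X.Opens) (hV : ⊤ ≤ V)
    (s : Γ(M, V)) (hs : IsGen M V s) :
    IsGen ((Scheme.Modules.pullback f).obj M) (f ⁻¹ᵁ V) (pullSec f M V s) := by
  have h1 := hs.mono hV
  have h2 := isGen_pullSec_top f M _ h1
  rw [pullSec_res] at h2
  exact IsGen.of_res (U := f ⁻¹ᵁ V) (V := f ⁻¹ᵁ ⊤) _ (fun _ _ => trivial) h2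

/-- restriction maps compose (all morphisms between opens are equal) -/
theorem map_map_eq (N : X.Modules) {A B C : X.Opens} (i : Opposite.op A ⟶ Opposite.op B)
    (j : Opposite.op B ⟶ Opposite.op C) (k : Opposite.op A ⟶ Opposite.op C) (x : Γ(N, A)) :
    N.presheaf.map j (N.presheaf.map i x) = N.presheaf.map k x := by
  have h : i ≫ j = k := Subsingleton.elim _ _
  rw [← h, Functor.map_comp]
  rfl

section BaseChange

variable (f : Y ⟶ X) (U : X.Opens)

/-- first adjunction: restrict to `U`, then pull back along `f ∣_ U` -/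
noncomputable def adjOne :
    Scheme.Modules.restrictFunctor U.ι ⋙ Scheme.Modules.pullback (f ∣_ U) ⊣
      Scheme.Modules.pushforward (f ∣_ U) ⋙ Scheme.Modules.pushforward U.ι :=
  (Scheme.Modules.restrictAdjunction U.ι).comp
    (Scheme.Modules.pullbackPushforwardAdjunction (f ∣_ U))

/-- second adjunction: pull back along `f`, then restrict to `f⁻¹U` -/
noncomputable def adjTwo :
    Scheme.Modules.pullback f ⋙ Scheme.Modules.restrictFunctor (f ⁻¹ᵁ U).ι ⊣
      Scheme.Modules.pushforward (f ⁻¹ᵁ U).ι ⋙ Scheme.Modules.pushforward f :=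
  (Scheme.Modules.pullbackPushforwardAdjunction f).comp
    (Scheme.Modules.restrictAdjunction (f ⁻¹ᵁ U).ι)

/-- the two push-forwards agree -/
noncomputable def kappa :
    Scheme.Modules.pushforward (f ⁻¹ᵁ U).ι ⋙ Scheme.Modules.pushforward f ≅
      Scheme.Modules.pushforward (f ∣_ U) ⋙ Scheme.Modules.pushforward U.ι :=
  Scheme.Modules.pushforwardComp _ _ ≪≫
    Scheme.Modules.pushforwardCongr (morphismRestrict_ι f U).symm ≪≫
    (Scheme.Modules.pushforwardComp _ _).symm

/-- base change for the restriction to an open -/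
noncomputable def theta :
    Scheme.Modules.restrictFunctor U.ι ⋙ Scheme.Modules.pullback (f ∣_ U) ≅
      Scheme.Modules.pullback f ⋙ Scheme.Modules.restrictFunctor (f ⁻¹ᵁ U).ι :=
  (adjOne f U).leftAdjointUniq ((adjTwo f U).ofNatIsoRight (kappa f U))

theorem theta_unit (M : X.Modules) :
    (adjOne f U).unit.app M ≫
      (Scheme.Modules.pushforward (f ∣_ U) ⋙ Scheme.Modules.pushforward U.ι).map
        ((theta f U).hom.app M) =
      ((adjTwo f U).ofNatIsoRight (kappa f U)).unit.app M :=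
  Adjunction.unit_leftAdjointUniq_hom_app _ _ M

theorem adjOne_unit_app (M : X.Modules) (s : Γ(M, U)) :
    ((adjOne f U).unit.app M).app U s =
      pullSec (f ∣_ U) (M.restrict U.ι) (U.ι ⁻¹ᵁ U)
        (M.presheaf.map (homOfLE (U.ι.image_preimage_le U)).op s) := by
  rw [adjOne, Adjunction.comp_unit_app]
  rfl

theorem adjTwo_unit_app (M : X.Modules) (s : Γ(M, U)) :
    (((adjTwo f U).ofNatIsoRight (kappa f U)).unit.app M).app U s =
      ((Scheme.Modules.pullback f).obj M).presheaf.map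
        (homOfLE (show (f ⁻¹ᵁ U).ι ''ᵁ ((f ∣_ U) ⁻¹ᵁ (U.ι ⁻¹ᵁ U)) ≤ f ⁻¹ᵁ U from by
          rintro _ ⟨y, -, rfl⟩
          exact y.2)).op (pullSec f M U s) := by
  rw [Adjunction.ofNatIsoRight_unit, adjTwo]
  simp only [NatTrans.comp_app, Functor.whiskerLeft_app]
  rw [Adjunction.comp_unit_app]
  simp only [kappa, Iso.trans_hom, Iso.symm_hom, NatTrans.comp_app, Functor.comp_obj,
    Scheme.Modules.Hom.comp_app, Scheme.Modules.pushforwardComp_hom_app_app,
    Scheme.Modules.pushforwardComp_inv_app_app, Scheme.Modules.pushforwardCongr_hom_app_app,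
    Scheme.Modules.pushforward_map_app, Scheme.Modules.restrictAdjunction_unit_app_app]
  simp only [ConcreteCategory.comp_apply]
  exact map_map_eq ((Scheme.Modules.pullback f).obj M) _ _ _ (pullSec f M U s)

theorem image_preimage_le' : (f ⁻¹ᵁ U).ι ''ᵁ ((f ∣_ U) ⁻¹ᵁ (U.ι ⁻¹ᵁ U)) ≤ f ⁻¹ᵁ U := by
  rintro _ ⟨y, -, rfl⟩
  exact y.2

theorem le_image_preimage' : f ⁻¹ᵁ U ≤ (f ⁻¹ᵁ U).ι ''ᵁ ((f ∣_ U) ⁻¹ᵁ (U.ι ⁻¹ᵁ U)) := by
  intro y hy
  refine ⟨⟨y, hy⟩, ?_, rfl⟩
  change U.ι ((f ∣_ U) ⟨y, hy⟩) ∈ U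
  exact ((f ∣_ U) ⟨y, hy⟩).2

/-- `θ` maps the pulled-back section to the pulled-back section -/
theorem theta_pullSec (M : X.Modules) (s : Γ(M, U)) :
    ((theta f U).hom.app M).app ((f ∣_ U) ⁻¹ᵁ (U.ι ⁻¹ᵁ U))
        (pullSec (f ∣_ U) (M.restrict U.ι) (U.ι ⁻¹ᵁ U)
          (M.presheaf.map (homOfLE (U.ι.image_preimage_le U)).op s)) =
      ((Scheme.Modules.pullback f).obj M).presheaf.map
        (homOfLE (image_preimage_le' f U)).op (pullSec f M U s) := by
  have h := congrArg (fun ψ => (Scheme.Modules.Hom.app ψ U) s) (theta_unit f U M)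
  simp only [Scheme.Modules.Hom.comp_app, ConcreteCategory.comp_apply] at h
  rw [adjOne_unit_app, adjTwo_unit_app] at h
  exact h

/-- **B-PULL, main part**: generating sections pull back to generating sections -/
theorem isGen_pullSec (M : X.Modules) (s : Γ(M, U)) (hs : IsGen M U s) :
    IsGen ((Scheme.Modules.pullback f).obj M) (f ⁻¹ᵁ U) (pullSec f M U s) := by
  have h1 := hs.mono (U.ι.image_preimage_le U)
  have h2 := isGen_restrict_of U.ι M (U.ι ⁻¹ᵁ U) _ h1
  have h3 := isGen_pullSec_of_top_le (f ∣_ U) (M.restrict U.ι) (U.ι ⁻¹ᵁ U)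
    (fun y _ => y.2) _ h2
  have h4 := h3.of_iso ((theta f U).app M)
  have h5 : IsGen (((Scheme.Modules.pullback f).obj M).restrict (f ⁻¹ᵁ U).ι)
      ((f ∣_ U) ⁻¹ᵁ (U.ι ⁻¹ᵁ U))
      (show Γ(((Scheme.Modules.pullback f).obj M).restrict (f ⁻¹ᵁ U).ι, _) from
        ((Scheme.Modules.pullback f).obj M).presheaf.map
          (homOfLE (image_preimage_le' f U)).op (pullSec f M U s)) := by
    have e := theta_pullSec f U M s
    rw [← e]
    exact h4
  have h6 := isGen_of_restrict (f ⁻¹ᵁ U).ι ((Scheme.Modules.pullback f).obj M) _ _ h5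
  exact IsGen.of_res _ (le_image_preimage' f U) h6

end BaseChange

/-- **B-PULL** -/
theorem stmt_BPULL : Stmt_BPULL.{u} := by
  intro X Y f M
  exact ⟨pullSec f M, fun U s hs => isGen_pullSec f U M s hs,
    fun U V h s => pullSec_res f M h s, fun U a s => pullSec_smul f M U a s,
    fun U s t => pullSec_add f M U s t⟩

end Fermat.Agent.S25.Glue
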